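/-
S55 leaf 45a-CD-ABS (helper3): explicit level-constant inhomogeneous cochains in degrees 2, 3, 4
over a `Profin15.LevelStr`, the predicate `H3Vanishes` (level `H³ = 0`), and the two formal
consequences: lifting of level 2-cocycles along surjections (right exactness of level `H²`) and
stability of `H3Vanishes` under extensions.
-/
import Fermat.Agent.S55.Profin15.Cohomology

set_option autoImplicit false
set_option linter.style.haveILetI false

universe u v

open Fermat.Agent.S55.Profin15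

namespace Fermat.Agent.S55.CD3

variable {k : Type*} [CommRing k] {G : Type u} [Group G]
variable {A : Type v} [AddCommGroup A] [Module k A]

/-- inhomogeneous differential `C² → C³` (same formula as Mathlib's `d₂₃`). -/
def d23 (ρ : Representation k G A) (b : G × G → A) : G × G × G → A :=
  fun x => ρ x.1 (b (x.2.1, x.2.2)) - b (x.1 * x.2.1, x.2.2) + b (x.1, x.2.1 * x.2.2)
    - b (x.1, x.2.1)

/-- inhomogeneous differential `C³ → C⁴`. -/
def d34 (ρ : Representation k G A) (f : G × G × G → A) : G × G × G × G → A :=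
  fun x => ρ x.1 (f (x.2.1, x.2.2.1, x.2.2.2)) - f (x.1 * x.2.1, x.2.2.1, x.2.2.2)
    + f (x.1, x.2.1 * x.2.2.1, x.2.2.2) - f (x.1, x.2.1, x.2.2.1 * x.2.2.2)
    + f (x.1, x.2.1, x.2.2.1)

@[simp] lemma d23_apply (ρ : Representation k G A) (b : G × G → A) (g h j : G) :
    d23 ρ b (g, h, j) = ρ g (b (h, j)) - b (g * h, j) + b (g, h * j) - b (g, h) := rfl

@[simp] lemma d34_apply (ρ : Representation k G A) (f : G × G × G → A) (g h i j : G) :
    d34 ρ f (g, h, i, j) = ρ g (f (h, i, j)) - f (g * h, i, j) + f (g, h * i, j)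
      - f (g, h, i * j) + f (g, h, i) := rfl

lemma d34_d23 (ρ : Representation k G A) (b : G × G → A) : d34 ρ (d23 ρ b) = 0 := by
  funext ⟨g, h, i, j⟩
  simp only [d34_apply, d23_apply, map_sub, map_add, Pi.zero_apply, mul_assoc]
  rw [map_mul, Module.End.mul_apply]
  abel

lemma d23_add (ρ : Representation k G A) (b b' : G × G → A) :
    d23 ρ (b + b') = d23 ρ b + d23 ρ b' := by
  funext ⟨g, h, j⟩
  simp only [d23_apply, Pi.add_apply, map_add]
  abel

lemma d23_sub (ρ : Representation k G A) (b b' : G × G → A) :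
    d23 ρ (b - b') = d23 ρ b - d23 ρ b' := by
  funext ⟨g, h, j⟩
  simp only [d23_apply, Pi.sub_apply, map_sub]
  abel

lemma d34_sub (ρ : Representation k G A) (f f' : G × G × G → A) :
    d34 ρ (f - f') = d34 ρ f - d34 ρ f' := by
  funext ⟨g, h, i, j⟩
  simp only [d34_apply, Pi.sub_apply, map_sub]
  abel

section Equivariant

variable {A' : Type*} [AddCommGroup A'] [Module k A']

/-- equivariant linear maps commute with `d23`. -/
lemma d23_comp (ρ : Representation k G A) (ρ' : Representation k G A') (φ : A →ₗ[k] A')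
    (hφ : ∀ g a, φ (ρ g a) = ρ' g (φ a)) (b : G × G → A) :
    d23 ρ' (φ ∘ b) = φ ∘ d23 ρ b := by
  funext ⟨g, h, j⟩
  simp only [d23_apply, Function.comp_apply, map_sub, map_add, hφ]

/-- equivariant linear maps commute with `d34`. -/
lemma d34_comp (ρ : Representation k G A) (ρ' : Representation k G A') (φ : A →ₗ[k] A')
    (hφ : ∀ g a, φ (ρ g a) = ρ' g (φ a)) (f : G × G × G → A) :
    d34 ρ' (φ ∘ f) = φ ∘ d34 ρ f := by
  funext ⟨g, h, i, j⟩
  simp only [d34_apply, Function.comp_apply, map_sub, map_add, hφ]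

end Equivariant

/-! ### level-constancy in degree 3 -/

section Level

variable (𝒰 : LevelStr G)

variable {𝒰}

lemma isConst₃_exists_le {X : Type*} {f : G × G × G → X} (hf : 𝒰.IsConst₃ f) {V : Subgroup G}
    (hV : V ∈ 𝒰.levels) : ∃ W ∈ 𝒰.levels, W ≤ V ∧
      ∀ g g' g'' s s' s'', s ∈ W → s' ∈ W → s'' ∈ W →
        f (g * s, g' * s', g'' * s'') = f (g, g', g'') := by
  obtain ⟨U, hU, h⟩ := hf
  obtain ⟨W, hW, hle⟩ := 𝒰.directed U hU V hV
  exact ⟨W, hW, hle.trans inf_le_right, fun g g' g'' s s' s'' hs hs' hs'' =>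
    h g g' g'' s s' s'' (hle.trans inf_le_left hs) (hle.trans inf_le_left hs')
      (hle.trans inf_le_left hs'')⟩

lemma isConst₃_add {X : Type*} [Add X] {f f' : G × G × G → X} (hf : 𝒰.IsConst₃ f)
    (hf' : 𝒰.IsConst₃ f') : 𝒰.IsConst₃ (f + f') := by
  obtain ⟨U, hU, h⟩ := hf
  obtain ⟨W, hW, hle, h'⟩ := isConst₃_exists_le hf' hU
  exact ⟨W, hW, fun g g' g'' s s' s'' hs hs' hs'' => by
    simp only [Pi.add_apply, h g g' g'' s s' s'' (hle hs) (hle hs') (hle hs''),
      h' g g' g'' s s' s'' hs hs' hs'']⟩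

lemma isConst₃_comp {X Y : Type*} {f : G × G × G → X} (hf : 𝒰.IsConst₃ f) (φ : X → Y) :
    𝒰.IsConst₃ (φ ∘ f) := by
  obtain ⟨U, hU, h⟩ := hf
  exact ⟨U, hU, fun g g' g'' s s' s'' hs hs' hs'' => by
    simp only [Function.comp_apply, h g g' g'' s s' s'' hs hs' hs'']⟩

lemma isConst₃_neg {X : Type*} [Neg X] {f : G × G × G → X} (hf : 𝒰.IsConst₃ f) :
    𝒰.IsConst₃ (-f) := isConst₃_comp hf (fun x => -x)

lemma isConst₃_sub {X : Type*} [AddGroup X] {f f' : G × G × G → X} (hf : 𝒰.IsConst₃ f)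
    (hf' : 𝒰.IsConst₃ f') : 𝒰.IsConst₃ (f - f') := by
  rw [sub_eq_add_neg]; exact isConst₃_add hf (isConst₃_neg hf')

lemma isConst₂_neg {X : Type*} [Neg X] {f : G × G → X} (hf : 𝒰.IsConst₂ f) :
    𝒰.IsConst₂ (-f) := hf.comp (fun x => -x)

lemma isConst₂_sub {X : Type*} [AddGroup X] {f f' : G × G → X} (hf : 𝒰.IsConst₂ f)
    (hf' : 𝒰.IsConst₂ f') : 𝒰.IsConst₂ (f - f') := by
  rw [sub_eq_add_neg]; exact hf.add (isConst₂_neg hf')

/-- smoothness of a representation for a level structure. -/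
def IsSmoothRep (𝒰 : LevelStr G) (ρ : Representation k G A) : Prop :=
  ∀ a : A, ∃ U ∈ 𝒰.levels, ∀ s ∈ U, ρ s a = a

lemma IsSmoothRep.exists_level_of_finite {ρ : Representation k G A} (hρ : IsSmoothRep 𝒰 ρ)
    {s : Set A} (hs : s.Finite) :
    ∃ U ∈ 𝒰.levels, ∀ m ∈ s, ∀ g ∈ U, ρ g m = m := by
  induction s, hs using Set.Finite.induction_on with
  | empty =>
    obtain ⟨U, hU⟩ := 𝒰.nonempty
    exact ⟨U, hU, fun m hm => (Set.notMem_empty m hm).elim⟩
  | insert _ _ ih =>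
    rename_i a s _ _
    obtain ⟨U, hU, h⟩ := ih
    obtain ⟨V, hV, hV'⟩ := hρ a
    obtain ⟨W, hW, hle⟩ := 𝒰.directed U hU V hV
    refine ⟨W, hW, fun m hm g hg => ?_⟩
    rcases Set.mem_insert_iff.1 hm with rfl | hm
    · exact hV' g (hle.trans inf_le_right hg)
    · exact h m hm g (hle.trans inf_le_left hg)

/-- For smooth `ρ`, `d23` maps level 2-cochains to level 3-cochains. -/
lemma isConst₃_d23 {ρ : Representation k G A} (hρ : IsSmoothRep 𝒰 ρ) {b : G × G → A}
    (hb : 𝒰.IsConst₂ b) : 𝒰.IsConst₃ (d23 ρ b) := by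
  obtain ⟨V, hV, hfix⟩ := hρ.exists_level_of_finite hb.finite_range
  obtain ⟨W, hW, hle, hc⟩ := hb.exists_le hV
  have hn := 𝒰.normal W hW
  refine ⟨W, hW, fun g h j s s' s'' hs hs' hs'' => ?_⟩
  simp only [d23_apply]
  have e1 : b (h * s', j * s'') = b (h, j) := hc h j s' s'' hs' hs''
  have e2 : b (g * s * (h * s'), j * s'') = b (g * h, j) := by
    have : g * s * (h * s') = g * h * ((h⁻¹ * s * h) * s') := by group
    rw [this]
    exact hc _ _ _ _ (W.mul_mem (Subgroup.Normal.conj_mem' hn s hs h) hs') hs''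
  have e3 : b (g * s, h * s' * (j * s'')) = b (g, h * j) := by
    have : h * s' * (j * s'') = h * j * ((j⁻¹ * s' * j) * s'') := by group
    rw [this]
    exact hc _ _ _ _ hs (W.mul_mem (Subgroup.Normal.conj_mem' hn s' hs' j) hs'')
  have e4 : b (g * s, h * s') = b (g, h) := hc g h s s' hs hs'
  rw [e1, e2, e3, e4, map_mul, Module.End.mul_apply, hfix (b (h, j)) ⟨(h, j), rfl⟩ s (hle hs)]

/-- level `H³` vanishes: every level 3-cocycle is the coboundary of a level 2-cochain. -/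
def H3Vanishes (𝒰 : LevelStr G) (ρ : Representation k G A) : Prop :=
  ∀ f : G × G × G → A, 𝒰.IsConst₃ f → d34 ρ f = 0 →
    ∃ b : G × G → A, 𝒰.IsConst₂ b ∧ d23 ρ b = f

end Level

/-! ### short exact sequences -/

section Exact

variable {𝒰 : LevelStr G}
variable {A1 : Type*} {A2 : Type*} {A3 : Type*}
  [AddCommGroup A1] [Module k A1] [AddCommGroup A2] [Module k A2] [AddCommGroup A3] [Module k A3]
  (ρ1 : Representation k G A1) (ρ2 : Representation k G A2) (ρ3 : Representation k G A3)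
  (ι : A1 →ₗ[k] A2) (π : A2 →ₗ[k] A3)

open Classical in
/-- a set-theoretic retraction of the injection `ι` (zero outside the range). -/
noncomputable def retrFun (ι : A1 →ₗ[k] A2) (a : A2) : A1 :=
  if h : ∃ x, ι x = a then h.choose else 0

lemma ι_retrFun {ι : A1 →ₗ[k] A2} {a : A2} (h : ∃ x, ι x = a) : ι (retrFun ι a) = a := by
  rw [retrFun, dif_pos h]; exact h.choose_spec

include ρ1 ρ2 ρ3 in
/-- **Lifting of level 2-cocycles** (right exactness of level `H²`). -/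
theorem exists_cocycle_lift (hι : ∀ g a, ι (ρ1 g a) = ρ2 g (ι a))
    (hπ : ∀ g a, π (ρ2 g a) = ρ3 g (π a)) (hinj : Function.Injective ι)
    (hsurj : Function.Surjective π) (hex : LinearMap.range ι = LinearMap.ker π)
    (hsm : IsSmoothRep 𝒰 ρ2) (h3 : H3Vanishes 𝒰 ρ1)
    (c : G × G → A3) (hc : 𝒰.IsConst₂ c) (hc0 : d23 ρ3 c = 0) :
    ∃ c' : G × G → A2, 𝒰.IsConst₂ c' ∧ d23 ρ2 c' = 0 ∧ ∀ x, π (c' x) = c x := by
  -- set-theoretic lift
  set c₀ : G × G → A2 := Function.surjInv hsurj ∘ c with hc₀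
  have hc₀c : ∀ x, π (c₀ x) = c x := fun x => Function.surjInv_eq hsurj (c x)
  have hc₀L : 𝒰.IsConst₂ c₀ := hc.comp _
  have hπc₀ : π ∘ c₀ = c := funext hc₀c
  -- its coboundary takes values in the range of `ι`
  have hker : ∀ x, ∃ y, ι y = d23 ρ2 c₀ x := by
    intro x
    have : d23 ρ2 c₀ x ∈ LinearMap.ker π := by
      rw [LinearMap.mem_ker]
      have := congrFun (d23_comp ρ2 ρ3 π hπ c₀) x
      rw [Function.comp_apply] at this
      rw [← this, hπc₀, hc0, Pi.zero_apply]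
    rw [← hex] at this
    exact this
  set f1 : G × G × G → A1 := retrFun ι ∘ d23 ρ2 c₀ with hf1
  have hιf1 : ι ∘ f1 = d23 ρ2 c₀ := funext fun x => ι_retrFun (hker x)
  have hf1L : 𝒰.IsConst₃ f1 := isConst₃_comp (isConst₃_d23 hsm hc₀L) _
  have hf1c : d34 ρ1 f1 = 0 := by
    funext x
    apply hinj
    have := congrFun (d34_comp ρ1 ρ2 ι hι f1) x
    rw [Function.comp_apply] at this
    rw [← this, hιf1, d34_d23, Pi.zero_apply, Pi.zero_apply, map_zero]
  obtain ⟨b1, hb1L, hb1⟩ := h3 f1 hf1L hf1c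
  refine ⟨c₀ - ι ∘ b1, isConst₂_sub hc₀L (hb1L.comp _), ?_, fun x => ?_⟩
  · rw [d23_sub, d23_comp ρ1 ρ2 ι hι, hb1, hιf1, sub_self]
  · have hz : π (ι (b1 x)) = 0 := by
      have : ι (b1 x) ∈ LinearMap.range ι := ⟨_, rfl⟩
      rw [hex] at this
      exact this
    simp only [Pi.sub_apply, Function.comp_apply, map_sub, hz, sub_zero, hc₀c]

include ρ1 ρ2 ρ3 in
/-- `H3Vanishes` is stable under extensions. -/
theorem H3Vanishes.of_shortExact (hι : ∀ g a, ι (ρ1 g a) = ρ2 g (ι a))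
    (hπ : ∀ g a, π (ρ2 g a) = ρ3 g (π a)) (hinj : Function.Injective ι)
    (hsurj : Function.Surjective π) (hex : LinearMap.range ι = LinearMap.ker π)
    (hsm : IsSmoothRep 𝒰 ρ2) (h1 : H3Vanishes 𝒰 ρ1) (h3 : H3Vanishes 𝒰 ρ3) :
    H3Vanishes 𝒰 ρ2 := by
  intro f hfL hf0
  -- push to `A3`
  have hπf0 : d34 ρ3 (π ∘ f) = 0 := by
    rw [d34_comp ρ2 ρ3 π hπ, hf0]; funext x; simp
  obtain ⟨b3, hb3L, hb3⟩ := h3 (π ∘ f) (isConst₃_comp hfL _) hπf0
  set b2 : G × G → A2 := Function.surjInv hsurj ∘ b3 with hb2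
  have hb2L : 𝒰.IsConst₂ b2 := hb3L.comp _
  have hπb2 : π ∘ b2 = b3 := funext fun x => Function.surjInv_eq hsurj (b3 x)
  set f' : G × G × G → A2 := f - d23 ρ2 b2 with hf'
  have hf'L : 𝒰.IsConst₃ f' := isConst₃_sub hfL (isConst₃_d23 hsm hb2L)
  have hf'0 : d34 ρ2 f' = 0 := by rw [hf', d34_sub, hf0, d34_d23, sub_zero]
  have hker : ∀ x, ∃ y, ι y = f' x := by
    intro x
    have : f' x ∈ LinearMap.ker π := by
      rw [LinearMap.mem_ker, hf', Pi.sub_apply, map_sub]
      have e1 := congrFun (d23_comp ρ2 ρ3 π hπ b2) x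
      rw [Function.comp_apply] at e1
      rw [← e1, hπb2, hb3, Function.comp_apply, sub_self]
    rw [← hex] at this
    exact this
  set f1 : G × G × G → A1 := retrFun ι ∘ f' with hf1
  have hιf1 : ι ∘ f1 = f' := funext fun x => ι_retrFun (hker x)
  have hf1L : 𝒰.IsConst₃ f1 := isConst₃_comp hf'L _
  have hf1c : d34 ρ1 f1 = 0 := by
    funext x
    apply hinj
    have := congrFun (d34_comp ρ1 ρ2 ι hι f1) x
    rw [Function.comp_apply] at this
    rw [← this, hιf1, hf'0, Pi.zero_apply, Pi.zero_apply, map_zero]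
  obtain ⟨b1, hb1L, hb1⟩ := h1 f1 hf1L hf1c
  refine ⟨b2 + ι ∘ b1, hb2L.add (hb1L.comp _), ?_⟩
  rw [d23_add, d23_comp ρ1 ρ2 ι hι, hb1, hιf1, hf']
  abel

end Exact

end Fermat.Agent.S55.CD3
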