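/-
S55 leaf 45a-CD-ABS (helper3): restriction of a level structure to an open subgroup.
-/
import Fermat.Agent.S55.CD3.Cochain

set_option autoImplicit false
set_option linter.style.haveILetI false

universe u v

open Fermat.Agent.S55.Profin15

namespace Fermat.Agent.S55.CD3

variable {k : Type*} [CommRing k] {G : Type u} [Group G]
variable {A : Type v} [AddCommGroup A] [Module k A]

/-- `V` is open for the level structure: it contains a level. -/
def IsOpenSub (𝒰 : LevelStr G) (V : Subgroup G) : Prop := ∃ U ∈ 𝒰.levels, U ≤ V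

lemma IsOpenSub.finiteIndex {𝒰 : LevelStr G} {V : Subgroup G} (hV : IsOpenSub 𝒰 V) :
    V.FiniteIndex := by
  obtain ⟨U, hU, hle⟩ := hV
  haveI := 𝒰.finiteIndex U hU
  exact Subgroup.finiteIndex_of_le hle

lemma isOpenSub_top (𝒰 : LevelStr G) : IsOpenSub 𝒰 ⊤ := by
  obtain ⟨U, hU⟩ := 𝒰.nonempty
  exact ⟨U, hU, le_top⟩

/-- The restricted level structure on an open subgroup `V`: the levels contained in `V`. -/
def restrictLevels (𝒰 : LevelStr G) (V : Subgroup G) (hV : IsOpenSub 𝒰 V) : LevelStr ↥V where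
  levels := {W | ∃ U ∈ 𝒰.levels, U ≤ V ∧ W = U.subgroupOf V}
  nonempty := by
    obtain ⟨U, hU, hle⟩ := hV
    exact ⟨U.subgroupOf V, U, hU, hle, rfl⟩
  normal := by
    rintro W ⟨U, hU, -, rfl⟩
    haveI := 𝒰.normal U hU
    exact Subgroup.Normal.subgroupOf ‹_› V
  finiteIndex := by
    rintro W ⟨U, hU, -, rfl⟩
    haveI := 𝒰.finiteIndex U hU
    infer_instance
  directed := by
    rintro W ⟨U, hU, hUV, rfl⟩ W' ⟨U', hU', hU'V, rfl⟩
    obtain ⟨U'', hU'', hle⟩ := 𝒰.directed U hU U' hU'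
    refine ⟨U''.subgroupOf V, ⟨U'', hU'', (hle.trans inf_le_left).trans hUV, rfl⟩, ?_⟩
    intro x hx
    rw [Subgroup.mem_subgroupOf] at hx
    exact ⟨Subgroup.mem_subgroupOf.2 (hle.trans inf_le_left hx),
      Subgroup.mem_subgroupOf.2 (hle.trans inf_le_right hx)⟩

lemma mem_restrictLevels {𝒰 : LevelStr G} {V : Subgroup G} {hV : IsOpenSub 𝒰 V}
    {W : Subgroup ↥V} :
    W ∈ (restrictLevels 𝒰 V hV).levels ↔ ∃ U ∈ 𝒰.levels, U ≤ V ∧ W = U.subgroupOf V := Iff.rfl

/-- restriction of a representation to a subgroup. -/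
def resSub (ρ : Representation k G A) (V : Subgroup G) : Representation k ↥V A :=
  ρ.comp V.subtype

@[simp] lemma resSub_apply (ρ : Representation k G A) (V : Subgroup G) (v : ↥V) (a : A) :
    resSub ρ V v a = ρ (v : G) a := rfl

lemma IsSmoothRep.resSub {𝒰 : LevelStr G} {ρ : Representation k G A} (hρ : IsSmoothRep 𝒰 ρ)
    (V : Subgroup G) (hV : IsOpenSub 𝒰 V) :
    IsSmoothRep (restrictLevels 𝒰 V hV) (resSub ρ V) := by
  intro a
  obtain ⟨U, hU, h⟩ := hρ a
  obtain ⟨U0, hU0, hle0⟩ := hV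
  obtain ⟨W, hW, hle⟩ := 𝒰.directed U hU U0 hU0
  refine ⟨W.subgroupOf V, ⟨W, hW, (hle.trans inf_le_right).trans hle0, rfl⟩, fun s hs => ?_⟩
  rw [Subgroup.mem_subgroupOf] at hs
  exact h _ (hle.trans inf_le_left hs)

end Fermat.Agent.S55.CD3
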