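/-
S55 leaf 45a-CD-ABS (helper3): the Sylow step.  If `V ≤ G` is an open subgroup whose index is
invertible in `k`, then vanishing of level `H³` for `V` implies vanishing of level `H³` for `G`
(restriction is injective; proved by corestriction on homogeneous cochains + prism homotopy).
-/
import Fermat.Agent.S55.CD3.Restrict

set_option autoImplicit false
set_option linter.style.haveILetI false

universe u v

open Fermat.Agent.S55.Profin15

namespace Fermat.Agent.S55.CD3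

variable {k : Type*} [CommRing k] {G : Type u} [Group G]
variable {A : Type v} [AddCommGroup A] [Module k A]

/-! ### coset representatives and the retraction `G → V` -/

section Retr

variable (V : Subgroup G)

/-- a representative of the right coset `V x`. -/
noncomputable def rightRep (x : G) : G :=
  Quotient.out (Quotient.mk (QuotientGroup.rightRel V) x)

lemma mul_rightRep_inv_mem (x : G) : x * (rightRep V x)⁻¹ ∈ V := by
  have h : (QuotientGroup.rightRel V) (rightRep V x) x := Quotient.mk_out (s := QuotientGroup.rightRel V) x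
  rwa [QuotientGroup.rightRel_apply] at h

lemma rightRep_eq_of_mul_inv_mem {x y : G} (h : y * x⁻¹ ∈ V) : rightRep V x = rightRep V y := by
  unfold rightRep
  congr 1
  exact Quotient.sound (QuotientGroup.rightRel_apply.2 h)

lemma rightRep_mul_left {v : G} (hv : v ∈ V) (x : G) : rightRep V (v * x) = rightRep V x := by
  symm
  apply rightRep_eq_of_mul_inv_mem
  simpa using hv

/-- the `V`-equivariant retraction `G → V ⊆ G`. -/
noncomputable def retr (x : G) : G := x * (rightRep V x)⁻¹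

lemma retr_mem (x : G) : retr V x ∈ V := mul_rightRep_inv_mem V x

lemma retr_mul_left {v : G} (hv : v ∈ V) (x : G) : retr V (v * x) = v * retr V x := by
  unfold retr
  rw [rightRep_mul_left V hv, mul_assoc]

/-- right translation by a normal subgroup `W ≤ V` moves `retr` inside the `W`-coset. -/
lemma retr_mul_right {W : Subgroup G} (hW : W.Normal) (hWV : W ≤ V) (x : G) {w : G}
    (hw : w ∈ W) : ∃ w' ∈ W, retr V (x * w) = retr V x * w' := by
  have h1 : rightRep V (x * w) = rightRep V x := by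
    symm
    apply rightRep_eq_of_mul_inv_mem
    have : x * w * x⁻¹ ∈ W := hW.conj_mem w hw x
    exact hWV this
  refine ⟨rightRep V x * w * (rightRep V x)⁻¹, hW.conj_mem w hw _, ?_⟩
  unfold retr
  rw [h1]
  group

end Retr

/-! ### homogeneous cochains -/

/-- homogeneous version of an inhomogeneous 2-cochain. -/
def toHom2 (ρ : Representation k G A) (b : G × G → A) : G × G × G → A :=
  fun x => ρ x.1 (b (x.1⁻¹ * x.2.1, x.2.1⁻¹ * x.2.2))

/-- homogeneous version of an inhomogeneous 3-cochain. -/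
def toHom3 (ρ : Representation k G A) (f : G × G × G → A) : G × G × G × G → A :=
  fun x => ρ x.1 (f (x.1⁻¹ * x.2.1, x.2.1⁻¹ * x.2.2.1, x.2.2.1⁻¹ * x.2.2.2))

/-- homogeneous differential `C² → C³`. -/
def dh23 (B : G × G × G → A) : G × G × G × G → A :=
  fun x => B (x.2.1, x.2.2.1, x.2.2.2) - B (x.1, x.2.2.1, x.2.2.2) + B (x.1, x.2.1, x.2.2.2)
    - B (x.1, x.2.1, x.2.2.1)

@[simp] lemma toHom2_apply (ρ : Representation k G A) (b : G × G → A) (x0 x1 x2 : G) :
    toHom2 ρ b (x0, x1, x2) = ρ x0 (b (x0⁻¹ * x1, x1⁻¹ * x2)) := rfl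

@[simp] lemma toHom3_apply (ρ : Representation k G A) (f : G × G × G → A) (x0 x1 x2 x3 : G) :
    toHom3 ρ f (x0, x1, x2, x3) = ρ x0 (f (x0⁻¹ * x1, x1⁻¹ * x2, x2⁻¹ * x3)) := rfl

@[simp] lemma dh23_apply (B : G × G × G → A) (x0 x1 x2 x3 : G) :
    dh23 B (x0, x1, x2, x3) = B (x1, x2, x3) - B (x0, x2, x3) + B (x0, x1, x3) - B (x0, x1, x2) :=
  rfl

lemma dh23_toHom2 (ρ : Representation k G A) (b : G × G → A) :
    dh23 (toHom2 ρ b) = toHom3 ρ (d23 ρ b) := by
  funext ⟨x0, x1, x2, x3⟩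
  simp only [dh23_apply, toHom2_apply, toHom3_apply, d23_apply, map_sub, map_add]
  have e1 : ρ x0 (ρ (x0⁻¹ * x1) (b (x1⁻¹ * x2, x2⁻¹ * x3))) = ρ x1 (b (x1⁻¹ * x2, x2⁻¹ * x3)) := by
    rw [← Module.End.mul_apply, ← map_mul, mul_inv_cancel_left]
  have e2 : x0⁻¹ * x1 * (x1⁻¹ * x2) = x0⁻¹ * x2 := by group
  have e3 : x1⁻¹ * x2 * (x2⁻¹ * x3) = x1⁻¹ * x3 := by group
  rw [e1, e2, e3]

/-- the homogeneous cocycle identity of `toHom3 ρ f` for a 3-cocycle `f`. -/
lemma toHom3_cocycle (ρ : Representation k G A) {f : G × G × G → A} (hf : d34 ρ f = 0)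
    (x0 x1 x2 x3 x4 : G) :
    toHom3 ρ f (x1, x2, x3, x4) - toHom3 ρ f (x0, x2, x3, x4) + toHom3 ρ f (x0, x1, x3, x4)
      - toHom3 ρ f (x0, x1, x2, x4) + toHom3 ρ f (x0, x1, x2, x3) = 0 := by
  have h := congrArg (ρ x0) (congrFun hf (x0⁻¹ * x1, x1⁻¹ * x2, x2⁻¹ * x3, x3⁻¹ * x4))
  simp only [d34_apply, Pi.zero_apply, map_zero, map_sub, map_add] at h
  have e1 : ρ x0 (ρ (x0⁻¹ * x1) (f (x1⁻¹ * x2, x2⁻¹ * x3, x3⁻¹ * x4)))
      = ρ x1 (f (x1⁻¹ * x2, x2⁻¹ * x3, x3⁻¹ * x4)) := by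
    rw [← Module.End.mul_apply, ← map_mul, mul_inv_cancel_left]
  have e2 : x0⁻¹ * x1 * (x1⁻¹ * x2) = x0⁻¹ * x2 := by group
  have e3 : x1⁻¹ * x2 * (x2⁻¹ * x3) = x1⁻¹ * x3 := by group
  have e4 : x2⁻¹ * x3 * (x3⁻¹ * x4) = x2⁻¹ * x4 := by group
  rw [e1, e2, e3, e4] at h
  simpa only [toHom3_apply] using h

/-- `toHom3 ρ f` is `G`-equivariant. -/
lemma toHom3_equivariant (ρ : Representation k G A) (f : G × G × G → A) (g x0 x1 x2 x3 : G) :
    toHom3 ρ f (g * x0, g * x1, g * x2, g * x3) = ρ g (toHom3 ρ f (x0, x1, x2, x3)) := by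
  simp only [toHom3_apply, map_mul, Module.End.mul_apply]
  congr 3 <;> group

/-- `toHom2 ρ b` is `G`-equivariant. -/
lemma toHom2_equivariant (ρ : Representation k G A) (b : G × G → A) (g x0 x1 x2 : G) :
    toHom2 ρ b (g * x0, g * x1, g * x2) = ρ g (toHom2 ρ b (x0, x1, x2)) := by
  simp only [toHom2_apply, map_mul, Module.End.mul_apply]
  congr 3 <;> group

/-! ### the prism homotopy -/

/-- the prism operator between `id` and `r` on homogeneous 3-cochains. -/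
def prism (r : G → G) (F : G × G × G × G → A) : G × G × G → A :=
  fun x => F (r x.1, x.1, x.2.1, x.2.2) - F (r x.1, r x.2.1, x.2.1, x.2.2)
    + F (r x.1, r x.2.1, r x.2.2, x.2.2)

lemma dh23_prism (r : G → G) (F : G × G × G × G → A)
    (hF : ∀ x0 x1 x2 x3 x4 : G, F (x1, x2, x3, x4) - F (x0, x2, x3, x4) + F (x0, x1, x3, x4)
      - F (x0, x1, x2, x4) + F (x0, x1, x2, x3) = 0) (x0 x1 x2 x3 : G) :
    dh23 (prism r F) (x0, x1, x2, x3) = F (x0, x1, x2, x3) - F (r x0, r x1, r x2, r x3) := by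
  have E0 := hF (r x0) x0 x1 x2 x3
  have E1 := hF (r x0) (r x1) x1 x2 x3
  have E2 := hF (r x0) (r x1) (r x2) x2 x3
  have E3 := hF (r x0) (r x1) (r x2) (r x3) x3
  simp only [dh23_apply, prism]
  rw [← sub_eq_zero]
  have key : ∀ a0 a1 a2 a3 : A, a0 = 0 → a1 = 0 → a2 = 0 → a3 = 0 → -a0 + a1 - a2 + a3 = 0 := by
    intro a0 a1 a2 a3 h0 h1 h2 h3; rw [h0, h1, h2, h3]; simp
  rw [← key _ _ _ _ E0 E1 E2 E3]
  abel


/-! ### averaging over `G ⧸ V` -/

section Avg

variable (ρ : Representation k G A) (V : Subgroup G)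

/-- `S`-equivariance of a homogeneous 2-cochain. -/
def IsEquivar2 (S : Subgroup G) (B : G × G × G → A) : Prop :=
  ∀ s ∈ S, ∀ x0 x1 x2 : G, B (s * x0, s * x1, s * x2) = ρ s (B (x0, x1, x2))

/-- the translate `y • B`. -/
def act2 (y : G) (B : G × G × G → A) : G × G × G → A :=
  fun x => ρ y (B (y⁻¹ * x.1, y⁻¹ * x.2.1, y⁻¹ * x.2.2))

lemma act2_apply (y : G) (B : G × G × G → A) (x0 x1 x2 : G) :
    act2 ρ y B (x0, x1, x2) = ρ y (B (y⁻¹ * x0, y⁻¹ * x1, y⁻¹ * x2)) := rfl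

variable {ρ V}

lemma act2_mul_right {B : G × G × G → A} (hB : IsEquivar2 ρ V B) (y : G) {v : G} (hv : v ∈ V) :
    act2 ρ (y * v) B = act2 ρ y B := by
  funext ⟨x0, x1, x2⟩
  simp only [act2_apply, mul_inv_rev, map_mul, Module.End.mul_apply]
  congr 1
  rw [← hB v hv]
  simp only [mul_assoc, mul_inv_cancel_left]

lemma act2_eq_of_leftRel {B : G × G × G → A} (hB : IsEquivar2 ρ V B) {a b : G}
    (h : a⁻¹ * b ∈ V) : act2 ρ a B = act2 ρ b B := by
  have : b = a * (a⁻¹ * b) := by group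
  rw [this, act2_mul_right hB a h]

variable [Fintype (G ⧸ V)]

/-- the average (corestriction) of a `V`-equivariant homogeneous 2-cochain. -/
noncomputable def avg (B : G × G × G → A) (hB : IsEquivar2 ρ V B) : G × G × G → A :=
  fun x => ∑ q : G ⧸ V, Quotient.liftOn' q (fun y => act2 ρ y B x)
    (fun a b hab => by
      have h : a⁻¹ * b ∈ V := QuotientGroup.leftRel_apply.1 hab
      exact congrFun (act2_eq_of_leftRel hB h) x)

lemma avg_apply (B : G × G × G → A) (hB : IsEquivar2 ρ V B) (x : G × G × G) :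
    avg B hB x = ∑ q : G ⧸ V, Quotient.liftOn' q (fun y => act2 ρ y B x)
      (fun a b hab => by
        have h : a⁻¹ * b ∈ V := QuotientGroup.leftRel_apply.1 hab
        exact congrFun (act2_eq_of_leftRel hB h) x) := rfl

lemma avg_equivariant (B : G × G × G → A) (hB : IsEquivar2 ρ V B) (g x0 x1 x2 : G) :
    avg B hB (g * x0, g * x1, g * x2) = ρ g (avg B hB (x0, x1, x2)) := by
  rw [avg_apply, avg_apply, map_sum]
  rw [← Equiv.sum_comp (MulAction.toPerm (g : G) : G ⧸ V ≃ G ⧸ V)]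
  refine Finset.sum_congr rfl fun q _ => ?_
  induction q using Quotient.inductionOn' with
  | h y =>
    have e : (MulAction.toPerm (g : G) : G ⧸ V ≃ G ⧸ V) (Quotient.mk'' y) = Quotient.mk'' (g * y) :=
      rfl
    rw [e]
    simp only [Quotient.liftOn'_mk'', act2_apply, mul_inv_rev, map_mul, Module.End.mul_apply]
    congr 3 <;> group

lemma dh23_avg (B : G × G × G → A) (hB : IsEquivar2 ρ V B) (F : G × G × G × G → A)
    (hF : ∀ g x0 x1 x2 x3 : G, F (g * x0, g * x1, g * x2, g * x3) = ρ g (F (x0, x1, x2, x3)))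
    (hBF : dh23 B = F) (x : G × G × G × G) :
    dh23 (avg B hB) x = (Fintype.card (G ⧸ V)) • F x := by
  obtain ⟨x0, x1, x2, x3⟩ := x
  simp only [dh23_apply, avg_apply]
  rw [← Finset.sum_sub_distrib, ← Finset.sum_add_distrib, ← Finset.sum_sub_distrib]
  have hR : (Fintype.card (G ⧸ V)) • F (x0, x1, x2, x3) = ∑ _q : G ⧸ V, F (x0, x1, x2, x3) := by
    rw [Finset.sum_const, Finset.card_univ]
  rw [hR]
  refine Finset.sum_congr rfl fun q _ => ?_
  induction q using Quotient.inductionOn' with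
  | h y =>
    simp only [Quotient.liftOn'_mk'', act2_apply]
    rw [← map_sub, ← map_add, ← map_sub]
    have h1 := congrFun hBF (y⁻¹ * x0, y⁻¹ * x1, y⁻¹ * x2, y⁻¹ * x3)
    rw [dh23_apply] at h1
    rw [h1, ← hF]
    simp only [mul_inv_cancel_left]

/-- right invariance under `W` in every variable. -/
def RInv3 (W : Subgroup G) {X : Type*} (B : G × G × G → X) : Prop :=
  ∀ x0 x1 x2 w0 w1 w2 : G, w0 ∈ W → w1 ∈ W → w2 ∈ W →
    B (x0 * w0, x1 * w1, x2 * w2) = B (x0, x1, x2)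

lemma avg_rInv3 (B : G × G × G → A) (hB : IsEquivar2 ρ V B) {W : Subgroup G}
    (hW : RInv3 W B) : RInv3 W (avg B hB) := by
  intro x0 x1 x2 w0 w1 w2 h0 h1 h2
  rw [avg_apply, avg_apply]
  refine Finset.sum_congr rfl fun q _ => ?_
  induction q using Quotient.inductionOn' with
  | h y =>
    simp only [Quotient.liftOn'_mk'', act2_apply, ← mul_assoc]
    rw [hW _ _ _ w0 w1 w2 h0 h1 h2]

end Avg

/-! ### right invariance of homogeneous cochains attached to level cochains -/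

section RInv

variable (ρ : Representation k G A)

/-- right invariance under `W` in every variable (4 variables). -/
def RInv4 (W : Subgroup G) {X : Type*} (F : G × G × G × G → X) : Prop :=
  ∀ x0 x1 x2 x3 w0 w1 w2 w3 : G, w0 ∈ W → w1 ∈ W → w2 ∈ W → w3 ∈ W →
    F (x0 * w0, x1 * w1, x2 * w2, x3 * w3) = F (x0, x1, x2, x3)

lemma inv_mul_conj (x y w w' : G) :
    (x * w)⁻¹ * (y * w') = (x⁻¹ * y) * (((x⁻¹ * y)⁻¹ * w⁻¹ * (x⁻¹ * y)) * w') := by group

lemma conj_mul_mem {W : Subgroup G} (hW : W.Normal) (t : G) {w w' : G} (hw : w ∈ W)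
    (hw' : w' ∈ W) : (t⁻¹ * w⁻¹ * t) * w' ∈ W :=
  W.mul_mem (hW.conj_mem' _ (W.inv_mem hw) _) hw'

lemma toHom3_rInv4 {W : Subgroup G} (hW : W.Normal) {f : G × G × G → A}
    (hc : ∀ g h j s s' s'', s ∈ W → s' ∈ W → s'' ∈ W → f (g * s, h * s', j * s'') = f (g, h, j))
    (hfix : ∀ x, ∀ s ∈ W, ρ s (f x) = f x) : RInv4 W (toHom3 ρ f) := by
  intro x0 x1 x2 x3 w0 w1 w2 w3 h0 h1 h2 h3
  simp only [toHom3_apply]
  rw [inv_mul_conj x0 x1 w0 w1, inv_mul_conj x1 x2 w1 w2, inv_mul_conj x2 x3 w2 w3,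
    hc _ _ _ _ _ _ (conj_mul_mem hW _ h0 h1) (conj_mul_mem hW _ h1 h2) (conj_mul_mem hW _ h2 h3),
    map_mul, Module.End.mul_apply, hfix _ _ h0]

lemma toHom2_rInv3 {W : Subgroup G} (hW : W.Normal) {b : G × G → A}
    (hc : ∀ g h s s', s ∈ W → s' ∈ W → b (g * s, h * s') = b (g, h))
    (hfix : ∀ x, ∀ s ∈ W, ρ s (b x) = b x) : RInv3 W (toHom2 ρ b) := by
  intro x0 x1 x2 w0 w1 w2 h0 h1 h2
  simp only [toHom2_apply]
  rw [inv_mul_conj x0 x1 w0 w1, inv_mul_conj x1 x2 w1 w2,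
    hc _ _ _ _ (conj_mul_mem hW _ h0 h1) (conj_mul_mem hW _ h1 h2),
    map_mul, Module.End.mul_apply, hfix _ _ h0]

variable {ρ}

lemma rInv3_comp {W : Subgroup G} {X : Type*} {B : G × G × G → X} (hB : RInv3 W B) {r : G → G}
    (hr : ∀ x w, w ∈ W → ∃ w' ∈ W, r (x * w) = r x * w') :
    RInv3 W (fun x : G × G × G => B (r x.1, r x.2.1, r x.2.2)) := by
  intro x0 x1 x2 w0 w1 w2 h0 h1 h2
  obtain ⟨w0', h0', e0⟩ := hr x0 w0 h0
  obtain ⟨w1', h1', e1⟩ := hr x1 w1 h1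
  obtain ⟨w2', h2', e2⟩ := hr x2 w2 h2
  simp only [e0, e1, e2]
  exact hB _ _ _ _ _ _ h0' h1' h2'

lemma prism_rInv3 {W : Subgroup G} {F : G × G × G × G → A} (hF : RInv4 W F) {r : G → G}
    (hr : ∀ x w, w ∈ W → ∃ w' ∈ W, r (x * w) = r x * w') : RInv3 W (prism r F) := by
  intro x0 x1 x2 w0 w1 w2 h0 h1 h2
  obtain ⟨w0', h0', e0⟩ := hr x0 w0 h0
  obtain ⟨w1', h1', e1⟩ := hr x1 w1 h1
  obtain ⟨w2', h2', e2⟩ := hr x2 w2 h2
  simp only [prism, e0, e1, e2]
  rw [hF _ _ _ _ _ _ _ _ h0' h0 h1 h2, hF _ _ _ _ _ _ _ _ h0' h1' h1 h2,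
    hF _ _ _ _ _ _ _ _ h0' h1' h2' h2]

lemma RInv3.add {W : Subgroup G} {B B' : G × G × G → A} (hB : RInv3 W B) (hB' : RInv3 W B') :
    RInv3 W (B + B') := by
  intro x0 x1 x2 w0 w1 w2 h0 h1 h2
  simp only [Pi.add_apply]
  rw [hB _ _ _ _ _ _ h0 h1 h2, hB' _ _ _ _ _ _ h0 h1 h2]

lemma prism_equivariant (ρ : Representation k G A) {r : G → G} {F : G × G × G × G → A} {s : G}
    (hr : ∀ x, r (s * x) = s * r x)
    (hF : ∀ x0 x1 x2 x3, F (s * x0, s * x1, s * x2, s * x3) = ρ s (F (x0, x1, x2, x3)))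
    (x0 x1 x2 : G) : prism r F (s * x0, s * x1, s * x2) = ρ s (prism r F (x0, x1, x2)) := by
  simp only [prism, hr, hF, map_sub, map_add]

lemma dh23_add (B B' : G × G × G → A) : dh23 (B + B') = dh23 B + dh23 B' := by
  funext ⟨x0, x1, x2, x3⟩
  simp only [dh23_apply, Pi.add_apply]
  abel

end RInv

/-! ### extension by zero from `V` to `G` -/

section Extend

variable (V : Subgroup G)

open Classical in
/-- extension by zero of a 2-cochain on `V` to a 2-cochain on `G`. -/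
noncomputable def extendZero (bV : ↥V × ↥V → A) : G × G → A :=
  fun x => if h : x.1 ∈ V ∧ x.2 ∈ V then bV (⟨x.1, h.1⟩, ⟨x.2, h.2⟩) else 0

lemma extendZero_of_mem (bV : ↥V × ↥V → A) {g h : G} (hg : g ∈ V) (hh : h ∈ V) :
    extendZero V bV (g, h) = bV (⟨g, hg⟩, ⟨h, hh⟩) := by
  have : (g, h).1 ∈ V ∧ (g, h).2 ∈ V := ⟨hg, hh⟩
  rw [extendZero, dif_pos this]

lemma extendZero_of_not_mem (bV : ↥V × ↥V → A) {g h : G} (hgh : ¬ (g ∈ V ∧ h ∈ V)) :
    extendZero V bV (g, h) = 0 := by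
  have : ¬ ((g, h).1 ∈ V ∧ (g, h).2 ∈ V) := hgh
  rw [extendZero, dif_neg this]

lemma d23_extendZero (ρ : Representation k G A) (bV : ↥V × ↥V → A) {g h j : G} (hg : g ∈ V)
    (hh : h ∈ V) (hj : j ∈ V) :
    d23 ρ (extendZero V bV) (g, h, j) = d23 (resSub ρ V) bV (⟨g, hg⟩, ⟨h, hh⟩, ⟨j, hj⟩) := by
  simp only [d23_apply, resSub_apply]
  rw [extendZero_of_mem V bV hh hj, extendZero_of_mem V bV (V.mul_mem hg hh) hj,
    extendZero_of_mem V bV hg (V.mul_mem hh hj), extendZero_of_mem V bV hg hh]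
  rfl

lemma extendZero_const (bV : ↥V × ↥V → A) {W : Subgroup G} (hWV : W ≤ V)
    (hc : ∀ g g' s s', s ∈ W.subgroupOf V → s' ∈ W.subgroupOf V → bV (g * s, g' * s') = bV (g, g'))
    (g h s s' : G) (hs : s ∈ W) (hs' : s' ∈ W) :
    extendZero V bV (g * s, h * s') = extendZero V bV (g, h) := by
  by_cases hgh : g ∈ V ∧ h ∈ V
  · obtain ⟨hg, hh⟩ := hgh
    rw [extendZero_of_mem V bV (V.mul_mem hg (hWV hs)) (V.mul_mem hh (hWV hs')),
      extendZero_of_mem V bV hg hh]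
    exact hc ⟨g, hg⟩ ⟨h, hh⟩ ⟨s, hWV hs⟩ ⟨s', hWV hs'⟩ (Subgroup.mem_subgroupOf.2 hs)
      (Subgroup.mem_subgroupOf.2 hs')
  · have hgh' : ¬ (g * s ∈ V ∧ h * s' ∈ V) := by
      rintro ⟨h1, h2⟩
      exact hgh ⟨(Subgroup.mul_mem_cancel_right V (hWV hs)).1 h1,
        (Subgroup.mul_mem_cancel_right V (hWV hs')).1 h2⟩
    rw [extendZero_of_not_mem V bV hgh, extendZero_of_not_mem V bV hgh']

lemma extendZero_range_finite (bV : ↥V × ↥V → A) (h : (Set.range bV).Finite) :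
    (Set.range (extendZero V bV)).Finite := by
  refine (h.insert 0).subset ?_
  rintro _ ⟨⟨g, j⟩, rfl⟩
  by_cases hgh : g ∈ V ∧ j ∈ V
  · rw [extendZero_of_mem V bV hgh.1 hgh.2]
    exact Set.mem_insert_of_mem _ ⟨_, rfl⟩
  · rw [extendZero_of_not_mem V bV hgh]
    exact Set.mem_insert _ _

end Extend

lemma isConst₃_finite_range {𝒰 : LevelStr G} {X : Type*} {f : G × G × G → X}
    (hf : 𝒰.IsConst₃ f) : (Set.range f).Finite := by
  obtain ⟨U, hU, h⟩ := hf
  haveI := 𝒰.finiteIndex U hU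
  haveI : Finite (G ⧸ U) := Subgroup.finite_quotient_of_finiteIndex
  have key : ∀ a b c a' b' c' : G, (a : G ⧸ U) = a' → (b : G ⧸ U) = b' → (c : G ⧸ U) = c' →
      f (a, b, c) = f (a', b', c') := by
    intro a b c a' b' c' ha hb hc
    have ha' : a⁻¹ * a' ∈ U := QuotientGroup.eq.1 ha
    have hb' : b⁻¹ * b' ∈ U := QuotientGroup.eq.1 hb
    have hc' : c⁻¹ * c' ∈ U := QuotientGroup.eq.1 hc
    have := h a b c (a⁻¹ * a') (b⁻¹ * b') (c⁻¹ * c') ha' hb' hc'
    rw [mul_inv_cancel_left, mul_inv_cancel_left, mul_inv_cancel_left] at this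
    exact this.symm
  let f' : (G ⧸ U) × (G ⧸ U) × (G ⧸ U) → X := fun x =>
    f (Quotient.out x.1, Quotient.out x.2.1, Quotient.out x.2.2)
  have : Set.range f ⊆ Set.range f' := by
    rintro _ ⟨⟨a, b, c⟩, rfl⟩
    refine ⟨(QuotientGroup.mk a, QuotientGroup.mk b, QuotientGroup.mk c), ?_⟩
    exact key _ _ _ _ _ _ (QuotientGroup.out_eq' _) (QuotientGroup.out_eq' _)
      (QuotientGroup.out_eq' _)
  exact (Set.finite_range f').subset this

/-! ### the Sylow step -/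

/-- **Restriction to an open subgroup of invertible index is injective on level `H³`**:
if level `H³` of `V` vanishes then so does level `H³` of `G`. -/
theorem H3Vanishes.of_restrict {𝒰 : LevelStr G} {ρ : Representation k G A} (V : Subgroup G)
    (hV : IsOpenSub 𝒰 V) (hidx : IsUnit ((V.index : ℕ) : k)) (hsm : IsSmoothRep 𝒰 ρ)
    (h : H3Vanishes (restrictLevels 𝒰 V hV) (resSub ρ V)) : H3Vanishes 𝒰 ρ := by
  intro f hf hf0
  have hV' := hV
  obtain ⟨U0, hU0, hU0V⟩ := hV'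
  -- restriction of `f` to `V`
  set fV : ↥V × ↥V × ↥V → A := fun x => f ((x.1 : G), (x.2.1 : G), (x.2.2 : G)) with hfV
  have hfVc : (restrictLevels 𝒰 V hV).IsConst₃ fV := by
    obtain ⟨W, hW, hWle, hc⟩ := isConst₃_exists_le hf hU0
    refine ⟨W.subgroupOf V, ⟨W, hW, hWle.trans hU0V, rfl⟩, ?_⟩
    intro g g' g'' s s' s'' hs hs' hs''
    exact hc _ _ _ _ _ _ (Subgroup.mem_subgroupOf.1 hs) (Subgroup.mem_subgroupOf.1 hs')
      (Subgroup.mem_subgroupOf.1 hs'')
  have hfV0 : d34 (resSub ρ V) fV = 0 := by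
    funext ⟨g, h', i, j⟩
    exact congrFun hf0 ((g : G), (h' : G), (i : G), (j : G))
  obtain ⟨bV, hbVc, hbV⟩ := h fV hfVc hfV0
  -- extension by zero
  set bt : G × G → A := extendZero V bV with hbt
  have hbt_fin : (Set.range bt).Finite := extendZero_range_finite V bV hbVc.finite_range
  have hf_fin := isConst₃_finite_range hf
  obtain ⟨W1, ⟨U1, hU1, hU1V, rfl⟩, hbc⟩ := hbVc
  obtain ⟨U2, hU2, hfix2⟩ := hsm.exists_level_of_finite (hbt_fin.union hf_fin)
  obtain ⟨U3, hU3, hfc⟩ := hf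
  obtain ⟨W12, hW12, hle12⟩ := 𝒰.directed U1 hU1 U2 hU2
  obtain ⟨W, hW, hleW⟩ := 𝒰.directed W12 hW12 U3 hU3
  have hWU1 : W ≤ U1 := (hleW.trans inf_le_left).trans (hle12.trans inf_le_left)
  have hWU2 : W ≤ U2 := (hleW.trans inf_le_left).trans (hle12.trans inf_le_right)
  have hWU3 : W ≤ U3 := hleW.trans inf_le_right
  have hWV : W ≤ V := hWU1.trans hU1V
  have hWn : W.Normal := 𝒰.normal W hW
  -- homogeneous cochains
  set F : G × G × G × G → A := toHom3 ρ f with hF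
  have hFcoc := toHom3_cocycle ρ hf0
  have hFeq : ∀ g x0 x1 x2 x3 : G, F (g * x0, g * x1, g * x2, g * x3) = ρ g (F (x0, x1, x2, x3)) :=
    toHom3_equivariant ρ f
  set r : G → G := retr V with hr
  set B1 : G × G × G → A := fun x => toHom2 ρ bt (r x.1, r x.2.1, r x.2.2) with hB1
  set B' : G × G × G → A := B1 + prism r F with hB'
  have hrV : ∀ x, r x ∈ V := retr_mem V
  have hdB1 : ∀ x0 x1 x2 x3 : G, dh23 B1 (x0, x1, x2, x3) = F (r x0, r x1, r x2, r x3) := by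
    intro x0 x1 x2 x3
    have h1 : dh23 B1 (x0, x1, x2, x3) = dh23 (toHom2 ρ bt) (r x0, r x1, r x2, r x3) := rfl
    rw [h1, dh23_toHom2, hF, toHom3_apply, toHom3_apply]
    congr 1
    rw [hbt, d23_extendZero V ρ bV (V.mul_mem (V.inv_mem (hrV x0)) (hrV x1))
      (V.mul_mem (V.inv_mem (hrV x1)) (hrV x2)) (V.mul_mem (V.inv_mem (hrV x2)) (hrV x3)), hbV]
  have hdB' : dh23 B' = F := by
    funext ⟨x0, x1, x2, x3⟩
    rw [hB', dh23_add, Pi.add_apply, dh23_prism r F hFcoc, hdB1]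
    abel
  have hB'eq : IsEquivar2 ρ V B' := by
    intro s hs x0 x1 x2
    have hrs : ∀ x, r (s * x) = s * r x := fun x => retr_mul_left V hs x
    rw [hB', Pi.add_apply, Pi.add_apply, map_add, prism_equivariant ρ hrs (hFeq s)]
    congr 1
    show toHom2 ρ bt (r (s * x0), r (s * x1), r (s * x2)) = ρ s (toHom2 ρ bt (r x0, r x1, r x2))
    rw [hrs, hrs, hrs, toHom2_equivariant]
  -- averaging
  haveI : V.FiniteIndex := hV.finiteIndex
  haveI : Finite (G ⧸ V) := Subgroup.finite_quotient_of_finiteIndex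
  letI : Fintype (G ⧸ V) := Fintype.ofFinite _
  have hcard : Fintype.card (G ⧸ V) = V.index := by
    rw [Subgroup.index_eq_card, Nat.card_eq_fintype_card]
  obtain ⟨u, hu⟩ := hidx
  set Bavg : G × G × G → A := avg B' hB'eq with hBavg
  set b : G × G → A := fun x => ((u⁻¹ : kˣ) : k) • Bavg (1, x.1, x.1 * x.2) with hb
  refine ⟨b, ?_, ?_⟩
  · -- level constancy
    have hbtc : ∀ g h s s', s ∈ W → s' ∈ W → bt (g * s, h * s') = bt (g, h) := by
      intro g h s s' hs hs'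
      refine extendZero_const V bV hWV (fun g g' s s' hs hs' => hbc g g' s s' ?_ ?_) g h s s' hs hs'
      · exact Subgroup.mem_subgroupOf.2 (hWU1 (Subgroup.mem_subgroupOf.1 hs))
      · exact Subgroup.mem_subgroupOf.2 (hWU1 (Subgroup.mem_subgroupOf.1 hs'))
    have hbtfix : ∀ x, ∀ s ∈ W, ρ s (bt x) = bt x :=
      fun x s hs => hfix2 _ (Or.inl ⟨x, rfl⟩) s (hWU2 hs)
    have hffix : ∀ x, ∀ s ∈ W, ρ s (f x) = f x :=
      fun x s hs => hfix2 _ (Or.inr ⟨x, rfl⟩) s (hWU2 hs)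
    have hfc' : ∀ g h j s s' s'', s ∈ W → s' ∈ W → s'' ∈ W →
        f (g * s, h * s', j * s'') = f (g, h, j) :=
      fun g h j s s' s'' hs hs' hs'' => hfc g h j s s' s'' (hWU3 hs) (hWU3 hs') (hWU3 hs'')
    have hrW : ∀ x w, w ∈ W → ∃ w' ∈ W, r (x * w) = r x * w' :=
      fun x w hw => retr_mul_right V hWn hWV x hw
    have h1 : RInv3 W B1 := rInv3_comp (toHom2_rInv3 ρ hWn hbtc hbtfix) hrW
    have h2 : RInv3 W (prism r F) := prism_rInv3 (toHom3_rInv4 ρ hWn hfc' hffix) hrW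
    have h3 : RInv3 W B' := h1.add h2
    have h4 : RInv3 W Bavg := avg_rInv3 B' hB'eq h3
    refine ⟨W, hW, fun g h s s' hs hs' => ?_⟩
    simp only [hb]
    congr 1
    have e : g * s * (h * s') = g * h * ((h⁻¹ * s * h) * s') := by group
    rw [e]
    have := h4 1 g (g * h) 1 s ((h⁻¹ * s * h) * s') W.one_mem hs
      (W.mul_mem (hWn.conj_mem' s hs h) hs')
    rwa [mul_one] at this
  · -- coboundary
    funext ⟨g, h, j⟩
    have hd := dh23_avg B' hB'eq F hFeq hdB' (1, g, g * h, g * h * j)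
    rw [dh23_apply] at hd
    have he := avg_equivariant B' hB'eq g 1 h (h * j)
    rw [mul_one, ← mul_assoc] at he
    simp only [d23_apply, hb]
    rw [map_smul, ← he, ← smul_sub, ← smul_add, ← smul_sub, ← mul_assoc g h j, hd, hcard,
      ← Nat.cast_smul_eq_nsmul k, ← hu, smul_smul, Units.inv_mul, one_smul]
    rw [hF, toHom3_apply, map_one, Module.End.one_apply, inv_one, one_mul, inv_mul_cancel_left,
      inv_mul_cancel_left]

end Fermat.Agent.S55.CD3
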