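/-
S55 leaf 45a-CD-ABS (helper3): dévissage.  Over a field `k` of characteristic `p`, level `H³`
vanishes for every finite smooth `k[G]`-module as soon as it vanishes for the trivial module `k`
over a cofinal family of open subgroups (Sylow step + `p`-group filtration).
-/
import Fermat.Agent.S55.CD3.Cores

set_option autoImplicit false
set_option linter.style.haveILetI false

universe u v

open Fermat.Agent.S55.Profin15

namespace Fermat.Agent.S55.CD3

variable {k : Type*} [Field k] {G : Type u} [Group G]

/-- A group acting linearly through `p`-power-order automorphisms on a nonzero finite module over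
a field of characteristic `p` has a nonzero fixed vector. -/
lemma exists_fixed_ne_zero (p : ℕ) [Fact p.Prime] [CharP k p] {A : Type v} [AddCommGroup A]
    [Module k A] [Finite A] [Nontrivial A] (ρ : Representation k G A)
    (hpow : ∀ h : G, ∃ n : ℕ, ρ (h ^ p ^ n) = 1) : ∃ a : A, a ≠ 0 ∧ ∀ g, ρ g a = a := by
  classical
  haveI : Finite (A →ₗ[k] A) := Finite.of_injective (fun f => (f : A → A)) DFunLike.coe_injective
  let P : Subgroup (Units (A →ₗ[k] A)) := ρ.asGroupHom.range
  have hP : IsPGroup p P := by
    rintro ⟨x, g, rfl⟩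
    obtain ⟨n, hn⟩ := hpow g
    refine ⟨n, ?_⟩
    apply Subtype.ext
    apply Units.ext
    simp only [SubgroupClass.coe_pow, Units.val_pow_eq_pow_val, Representation.asGroupHom_apply,
      OneMemClass.coe_one, Units.val_one]
    rw [← map_pow, hn]
  have hcard : p ∣ Nat.card A := by
    obtain ⟨a, ha⟩ := exists_ne (0 : A)
    have hpa : p • a = 0 := by
      rw [← Nat.cast_smul_eq_nsmul k, CharP.cast_eq_zero, zero_smul]
    rw [← addOrderOf_eq_prime hpa ha]
    exact addOrderOf_dvd_natCard a
  have h0 : (0 : A) ∈ MulAction.fixedPoints P A := by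
    intro u
    show ((u : Units (A →ₗ[k] A)) : A →ₗ[k] A) 0 = 0
    exact map_zero _
  obtain ⟨b, hb, hb0⟩ := hP.exists_fixed_point_of_prime_dvd_card_of_fixed_point A hcard h0
  refine ⟨b, fun h => hb0 h.symm, fun g => ?_⟩
  have := hb ⟨ρ.asGroupHom g, g, rfl⟩
  rw [← Representation.asGroupHom_apply]
  exact this

/-- **`p`-group dévissage**: if every element of `G` acts on `A` with `p`-power order, then
vanishing of level `H³` for the trivial module `k` implies it for `A`. -/
theorem h3Vanishes_of_pow_trivial (p : ℕ) [Fact p.Prime] [CharP k p] (𝒲 : LevelStr G)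
    (hbase : H3Vanishes 𝒲 (Representation.trivial k G k)) :
    ∀ (n : ℕ) (A : Type v) [AddCommGroup A] [Module k A] [Finite A] (ρ : Representation k G A),
      Module.finrank k A = n → IsSmoothRep 𝒲 ρ → (∀ h : G, ∃ m : ℕ, ρ (h ^ p ^ m) = 1) →
      H3Vanishes 𝒲 ρ := by
  intro n
  induction n using Nat.strong_induction_on with
  | _ n ih =>
    intro A _ _ _ ρ hn hsm hpow
    by_cases hA : Subsingleton A
    · intro f _ _
      exact ⟨fun _ => 0, LevelStr.isConst₂_const (0 : A), Subsingleton.elim _ _⟩
    · rw [not_subsingleton_iff_nontrivial] at hA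
      obtain ⟨a, ha0, hafix⟩ := exists_fixed_ne_zero p ρ hpow
      set ι : k →ₗ[k] A := LinearMap.toSpanSingleton k A a with hι_def
      have hι_apply : ∀ c : k, ι c = c • a := fun c => rfl
      set L : Submodule k A := LinearMap.range ι with hL_def
      have hL : ∀ g, L ≤ L.comap (ρ g) := by
        rintro g _ ⟨c, rfl⟩
        refine ⟨c, ?_⟩
        rw [hι_apply, map_smul, hafix g]
      set ρ3 : Representation k G (A ⧸ L) := ρ.quotient L hL with hρ3
      haveI : Module.Finite k A := Module.Finite.of_finite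
      have hLspan : L = Submodule.span k {a} := by
        rw [hL_def, hι_def, LinearMap.range_toSpanSingleton]
      have hfr : Module.finrank k (A ⧸ L) < n := by
        have h1 := Submodule.finrank_quotient_add_finrank L
        have h2 : Module.finrank k ↥L = 1 := by
          rw [hLspan]; exact finrank_span_singleton ha0
        omega
      have hsm3 : IsSmoothRep 𝒲 ρ3 := by
        intro x
        obtain ⟨x, rfl⟩ := Submodule.Quotient.mk_surjective L x
        obtain ⟨U, hU, hfix⟩ := hsm x
        refine ⟨U, hU, fun s hs => ?_⟩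
        show Submodule.mapQ L L (ρ s) (hL s) (Submodule.Quotient.mk x) = Submodule.Quotient.mk x
        rw [Submodule.mapQ_apply, hfix s hs]
      have hpow3 : ∀ h : G, ∃ m : ℕ, ρ3 (h ^ p ^ m) = 1 := by
        intro h
        obtain ⟨m, hm⟩ := hpow h
        refine ⟨m, ?_⟩
        apply Submodule.linearMap_qext
        ext x
        show Submodule.mapQ L L (ρ (h ^ p ^ m)) (hL _) (Submodule.Quotient.mk x)
          = Submodule.Quotient.mk x
        rw [Submodule.mapQ_apply, hm, Module.End.one_apply]
      haveI : Finite (A ⧸ L) := Finite.of_surjective _ (Submodule.mkQ_surjective L)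
      have h3 : H3Vanishes 𝒲 ρ3 := ih _ hfr (A ⧸ L) ρ3 rfl hsm3 hpow3
      refine H3Vanishes.of_shortExact (Representation.trivial k G k) ρ ρ3 ι L.mkQ ?_ ?_ ?_ ?_ ?_
        hsm hbase h3
      · intro g c
        rw [Representation.trivial_apply, hι_apply, map_smul, hafix g]
      · intro g x
        rfl
      · intro c c' hcc
        rw [hι_apply, hι_apply] at hcc
        by_contra hne
        have : (c - c') • a = 0 := by rw [sub_smul, hcc, sub_self]
        rcases smul_eq_zero.1 this with h | h
        · exact hne (sub_eq_zero.1 h)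
        · exact ha0 h
      · exact Submodule.mkQ_surjective L
      · rw [Submodule.ker_mkQ]

/-- **Main dévissage theorem (cofinal form)**.  `k` a field of characteristic `p`, `𝒱` a family of
open subgroups such that every open subgroup contains a member of `𝒱` of index prime to `p`.
If level `H³` of the trivial module `k` vanishes over every member of `𝒱`, then level `H³`
vanishes over `G` for every finite smooth `k[G]`-module. -/
theorem h3Vanishes_of_trivial_cofinal (p : ℕ) [Fact p.Prime] [CharP k p] {𝒰 : LevelStr G}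
    (𝒱 : Set (Subgroup G))
    (hcof : ∀ V, IsOpenSub 𝒰 V → ∃ V' ∈ 𝒱, V' ≤ V ∧ IsOpenSub 𝒰 V' ∧ ¬ p ∣ V'.relIndex V)
    (hbase : ∀ V ∈ 𝒱, ∀ hV : IsOpenSub 𝒰 V,
      H3Vanishes (restrictLevels 𝒰 V hV) (Representation.trivial k ↥V k))
    {A : Type v} [AddCommGroup A] [Module k A] [Finite A] (ρ : Representation k G A)
    (hsm : IsSmoothRep 𝒰 ρ) : H3Vanishes 𝒰 ρ := by
  classical
  -- a level acting trivially
  obtain ⟨U, hU, hUfix⟩ := hsm.exists_level_of_finite (Set.finite_univ (α := A))
  haveI hUn : U.Normal := 𝒰.normal U hU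
  haveI hUfi : U.FiniteIndex := 𝒰.finiteIndex U hU
  haveI : Finite (G ⧸ U) := Subgroup.finite_quotient_of_finiteIndex
  -- Sylow subgroup of `G ⧸ U` and its preimage
  obtain ⟨P⟩ : Nonempty (Sylow p (G ⧸ U)) := inferInstance
  set V : Subgroup G := (P : Subgroup (G ⧸ U)).comap (QuotientGroup.mk' U) with hVdef
  have hUV : U ≤ V := by
    intro x hx
    rw [hVdef, Subgroup.mem_comap, QuotientGroup.mk'_apply, (QuotientGroup.eq_one_iff x).2 hx]
    exact Subgroup.one_mem _
  have hVopen : IsOpenSub 𝒰 V := ⟨U, hU, hUV⟩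
  have hVidx : ¬ p ∣ V.index := by
    rw [hVdef, Subgroup.index_comap_of_surjective _ (QuotientGroup.mk'_surjective U)]
    exact P.not_dvd_index
  obtain ⟨V', hV'mem, hV'V, hV'open, hrel⟩ := hcof V hVopen
  have hV'idx : ¬ p ∣ V'.index := by
    rw [← Subgroup.relIndex_mul_index hV'V]
    intro hdvd
    rcases (Nat.Prime.dvd_mul (Fact.out : p.Prime)).1 hdvd with h | h
    · exact hrel h
    · exact hVidx h
  have hunit : IsUnit ((V'.index : ℕ) : k) := by
    rw [isUnit_iff_ne_zero, Ne, CharP.cast_eq_zero_iff k p]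
    exact hV'idx
  refine H3Vanishes.of_restrict V' hV'open hunit hsm ?_
  refine h3Vanishes_of_pow_trivial p (restrictLevels 𝒰 V' hV'open) (hbase V' hV'mem hV'open) _ A
    (resSub ρ V') rfl (hsm.resSub V' hV'open) ?_
  intro h
  have hmem : (QuotientGroup.mk' U (h : G)) ∈ (P : Subgroup (G ⧸ U)) := hV'V h.2
  obtain ⟨m, hm⟩ := P.isPGroup' ⟨_, hmem⟩
  refine ⟨m, ?_⟩
  have hm' : (QuotientGroup.mk' U (h : G)) ^ p ^ m = 1 := by
    have := congrArg Subtype.val hm
    simpa using this
  rw [← map_pow, QuotientGroup.mk'_apply, QuotientGroup.eq_one_iff] at hm'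
  ext x
  rw [resSub_apply, Module.End.one_apply]
  have := hUfix x (Set.mem_univ x) _ hm'
  simpa using this

/-- **Main dévissage theorem**: if level `H³` of the trivial module `k` vanishes over every open
subgroup, then level `H³` vanishes for every finite smooth `k[G]`-module. -/
theorem h3Vanishes_of_trivial (p : ℕ) [Fact p.Prime] [CharP k p] {𝒰 : LevelStr G}
    (hbase : ∀ (V : Subgroup G) (hV : IsOpenSub 𝒰 V),
      H3Vanishes (restrictLevels 𝒰 V hV) (Representation.trivial k ↥V k))
    {A : Type v} [AddCommGroup A] [Module k A] [Finite A] (ρ : Representation k G A)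
    (hsm : IsSmoothRep 𝒰 ρ) : H3Vanishes 𝒰 ρ := by
  refine h3Vanishes_of_trivial_cofinal p Set.univ (fun V hV => ⟨V, Set.mem_univ V, le_rfl, hV, ?_⟩)
    (fun V _ hV => hbase V hV) ρ hsm
  rw [Subgroup.relIndex_self]
  exact (Fact.out : p.Prime).one_lt.ne' ∘ Nat.dvd_one.1

end Fermat.Agent.S55.CD3
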