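/-
S55 leaf 45a-CD-ABS (helper3): right exactness of level `H²` (`cd_p ≤ 2` in the form consumed by
the dualizing-module route): under vanishing of level `H³` for the trivial module over a cofinal
family of open subgroups, surjections of finite smooth modules induce surjections on level `H²`.
-/
import Fermat.Agent.S55.CD3.Devissage
import Fermat.Agent.S55.Profin15.Functor
import Fermat.Agent.S55.Dualizing59.Main

set_option autoImplicit false
set_option linter.style.haveILetI false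

universe u

open CategoryTheory groupCohomology

open Fermat.Agent.S55.Profin15

namespace Fermat.Agent.S55.CD3

section Bridge

variable {k G : Type u} [CommRing k] [Group G]

/-- `d23 = 0` is Mathlib's `2`-cocycle condition. -/
lemma d23_eq_zero_iff_mem_cocycles₂ (M : Rep k G) (f : G × G → M) :
    d23 M.ρ f = 0 ↔ f ∈ cocycles₂ M := by
  rw [mem_cocycles₂_iff]
  constructor
  · intro h g h' j
    have := congrFun h (g, h', j)
    rw [d23_apply, Pi.zero_apply, sub_eq_zero] at this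
    rw [← this]
    abel
  · intro h
    funext ⟨g, h', j⟩
    have := h g h' j
    rw [d23_apply, Pi.zero_apply, sub_eq_zero]
    calc M.ρ g (f (h', j)) - f (g * h', j) + f (g, h' * j)
        = (M.ρ g (f (h', j)) + f (g, h' * j)) - f (g * h', j) := by abel
      _ = (f (g * h', j) + f (g, h')) - f (g * h', j) := by rw [this]
      _ = f (g, h') := by abel

/-- the kernel of an equivariant map is stable. -/
lemma ker_le_comap {A B : Rep k G} (φ : A →ₗ[k] B) (hφ : ∀ g a, φ (A.ρ g a) = B.ρ g (φ a))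
    (g : G) : LinearMap.ker φ ≤ (LinearMap.ker φ).comap (A.ρ g) := by
  intro x hx
  rw [Submodule.mem_comap, LinearMap.mem_ker, hφ, LinearMap.mem_ker.1 hx, map_zero]

/-- the representation on the kernel of an equivariant map. -/
def kerRep {A B : Rep k G} (φ : A →ₗ[k] B) (hφ : ∀ g a, φ (A.ρ g a) = B.ρ g (φ a)) :
    Representation k G ↥(LinearMap.ker φ) :=
  A.ρ.subrepresentation (LinearMap.ker φ) (ker_le_comap φ hφ)

lemma kerRep_apply {A B : Rep k G} (φ : A →ₗ[k] B) (hφ : ∀ g a, φ (A.ρ g a) = B.ρ g (φ a))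
    (g : G) (x : ↥(LinearMap.ker φ)) : ((kerRep φ hφ g x : ↥(LinearMap.ker φ)) : A) = A.ρ g x :=
  rfl

lemma kerRep_isSmoothRep {𝒰 : LevelStr G} {A B : Rep k G} (φ : A →ₗ[k] B)
    (hφ : ∀ g a, φ (A.ρ g a) = B.ρ g (φ a)) (hA : 𝒰.IsSmooth A) :
    IsSmoothRep 𝒰 (kerRep φ hφ) := by
  intro x
  obtain ⟨U, hU, h⟩ := hA x
  exact ⟨U, hU, fun s hs => Subtype.ext (h s hs)⟩

/-- **Lifting level 2-cocycles** along a surjective equivariant map of representations whose
kernel has vanishing level `H³`. -/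
theorem exists_Z₂_lift (𝒰 : LevelStr G) {A B : Rep k G} (φ : A →ₗ[k] B)
    (hφ : ∀ g a, φ (A.ρ g a) = B.ρ g (φ a)) (hsurj : Function.Surjective φ)
    (hA : 𝒰.IsSmooth A) (h3 : H3Vanishes 𝒰 (kerRep φ hφ)) (z : ↥(𝒰.Z₂ B)) :
    ∃ c : ↥(𝒰.Z₂ A), ∀ x, φ ((c : G × G → A) x) = (z : G × G → B) x := by
  have hz := z.2
  obtain ⟨c', hc'L, hc'0, hc'π⟩ := exists_cocycle_lift (kerRep φ hφ) A.ρ B.ρ
    (LinearMap.ker φ).subtype φ (fun g a => rfl) hφ (Submodule.injective_subtype _) hsurj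
    (Submodule.range_subtype _) hA h3 (z : G × G → B) hz.2
    ((d23_eq_zero_iff_mem_cocycles₂ B _).2 hz.1)
  exact ⟨⟨c', (d23_eq_zero_iff_mem_cocycles₂ A c').1 hc'0, hc'L⟩, hc'π⟩

/-- surjectivity of `Profin15`'s `H2map`. -/
theorem H2map_surjective_of_h3Vanishes (𝒰 : LevelStr G) {A B : Rep k G} (φ : A →ₗ[k] B)
    (hφ : LevelStr.IsEquivariant φ) (hsurj : Function.Surjective φ) (hA : 𝒰.IsSmooth A)
    (h3 : H3Vanishes 𝒰 (kerRep φ hφ)) : Function.Surjective (𝒰.H2map φ hφ) := by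
  intro y
  obtain ⟨z, rfl⟩ := Submodule.mkQ_surjective _ y
  obtain ⟨c, hc⟩ := exists_Z₂_lift 𝒰 φ hφ hsurj hA h3 z
  refine ⟨𝒰.H2π A c, ?_⟩
  rw [LevelStr.H2map_H2π]
  congr 1
  apply Subtype.ext
  funext x
  exact hc x

/-- surjectivity of `Dualizing59`'s `H2m`. -/
theorem H2m_surjective_of_h3Vanishes {k G : Type u} [Field k] [Group G] (𝒰 : LevelStr G)
    {A B : Rep k G} (π : Dualizing59.eqHom A B) (hsurj : Function.Surjective π.1)
    (hA : 𝒰.IsSmooth A) (h3 : H3Vanishes 𝒰 (kerRep π.1 π.2)) :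
    Function.Surjective (Dualizing59.H2m 𝒰 π) := by
  intro y
  obtain ⟨z, rfl⟩ := Submodule.mkQ_surjective _ y
  obtain ⟨c, hc⟩ := exists_Z₂_lift 𝒰 π.1 π.2 hsurj hA h3 z
  refine ⟨𝒰.H2π A c, ?_⟩
  rw [Dualizing59.H2m_H2π]
  congr 1
  apply Subtype.ext
  funext x
  exact hc x

end Bridge

/-- **`cd_p ≤ 2` in the form consumed by the dualizing-module route** (`Dualizing59.RightExactH2`):
if level `H³` of the trivial module `k` vanishes over a cofinal family `𝒱` of open subgroups, then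
level `H²` sends surjections of finite smooth `k[G]`-modules to surjections. -/
theorem rightExactH2_of_cofinal (p : ℕ) [Fact p.Prime] {k G : Type u} [Field k] [Finite k]
    [CharP k p] [Group G] (𝒰 : LevelStr G) (𝒱 : Set (Subgroup G))
    (hcof : ∀ V, IsOpenSub 𝒰 V → ∃ V' ∈ 𝒱, V' ≤ V ∧ IsOpenSub 𝒰 V' ∧ ¬ p ∣ V'.relIndex V)
    (hbase : ∀ V ∈ 𝒱, ∀ hV : IsOpenSub 𝒰 V,
      H3Vanishes (restrictLevels 𝒰 V hV) (Representation.trivial k ↥V k)) :
    Dualizing59.RightExactH2 k 𝒰 := by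
  intro P N hP _ hPs _ π hπ
  haveI := hP
  haveI : Finite P := Module.finite_of_finite k
  exact H2m_surjective_of_h3Vanishes 𝒰 π hπ hPs
    (h3Vanishes_of_trivial_cofinal p 𝒱 hcof hbase _ (kerRep_isSmoothRep π.1 π.2 hPs))

/-- same with all open subgroups. -/
theorem rightExactH2 (p : ℕ) [Fact p.Prime] {k G : Type u} [Field k] [Finite k]
    [CharP k p] [Group G] (𝒰 : LevelStr G)
    (hbase : ∀ (V : Subgroup G) (hV : IsOpenSub 𝒰 V),
      H3Vanishes (restrictLevels 𝒰 V hV) (Representation.trivial k ↥V k)) :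
    Dualizing59.RightExactH2 k 𝒰 := by
  intro P N hP _ hPs _ π hπ
  haveI := hP
  haveI : Finite P := Module.finite_of_finite k
  exact H2m_surjective_of_h3Vanishes 𝒰 π hπ hPs
    (h3Vanishes_of_trivial p hbase _ (kerRep_isSmoothRep π.1 π.2 hPs))

end Fermat.Agent.S55.CD3
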