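/-
S55 plug (P1) `Contract34.GlobalRightExact` (helper3): literal discharge from ONE arithmetic input,
`GlobalH3Base p S` = vanishing of level `H³` of the trivial module `𝔽_p` over every open subgroup
`V` of `G_ℚ` (for the `S`-levels) on which the mod `p` cyclotomic character is trivial
(i.e. `H³(G_{K,S}, μ_p) = 0` for every finite `K ⊆ ℚ_S` containing `μ_p`).
-/
import Fermat.Agent.S55.CD3.RightExact
import Fermat.Agent.S55.Profin15.Contract
import Fermat.Agent.S55.LocDual26.Mu

set_option autoImplicit false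
set_option linter.style.haveILetI false

open CategoryTheory groupCohomology ExtCitation
open Fermat.Agent.S55.Profin15
open Fermat.Agent.Lib.FrobeniusExists (Qb GQ)

namespace Fermat.Agent.S55.CD3

/-- the kernel of a character with values in `(ZMod p)ˣ` has relative index prime to `p`. -/
lemma not_dvd_relIndex_ker {G : Type*} [Group G] (p : ℕ) [Fact p.Prime] (χ : G →* (ZMod p)ˣ)
    (V : Subgroup G) : ¬ p ∣ (V ⊓ χ.ker).relIndex V := by
  have h1 : (V ⊓ χ.ker).relIndex V = Nat.card (χ.comp V.subtype).range := by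
    rw [Subgroup.inf_relIndex_left, Subgroup.relIndex, ← Subgroup.index_ker]
    congr 1
  have h2 : Nat.card (χ.comp V.subtype).range ∣ p - 1 := by
    have := Subgroup.card_subgroup_dvd_card (χ.comp V.subtype).range
    rwa [Nat.card_eq_fintype_card (α := (ZMod p)ˣ), ZMod.card_units] at this
  rw [h1]
  intro h
  have hp : 1 < p := (Fact.out : p.Prime).one_lt
  exact Nat.not_dvd_of_pos_of_lt (by omega) (by omega) (dvd_trans h h2)

/-- open subgroups are stable under finite intersections. -/
lemma IsOpenSub.inf {G : Type*} [Group G] {𝒰 : LevelStr G} {V W : Subgroup G}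
    (hV : IsOpenSub 𝒰 V) (hW : IsOpenSub 𝒰 W) : IsOpenSub 𝒰 (V ⊓ W) := by
  obtain ⟨U1, hU1, h1⟩ := hV
  obtain ⟨U2, hU2, h2⟩ := hW
  obtain ⟨U, hU, hle⟩ := 𝒰.directed U1 hU1 U2 hU2
  exact ⟨U, hU, le_inf ((hle.trans inf_le_left).trans h1) ((hle.trans inf_le_right).trans h2)⟩

variable (p : ℕ) [Fact p.Prime] (S : Finset Nat.Primes)

/-- **THE arithmetic input of (P1)**: `H³(G_{K,S}, 𝔽_p) = 0` (level cochain form) for every open
subgroup `V = G_{K,S}` of `G_ℚ` (w.r.t. the `S`-levels) on which the mod `p` cyclotomic character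
is trivial (`μ_p ⊆ K`). -/
def GlobalH3Base : Prop :=
  ∀ (V : Subgroup GQ) (hV : IsOpenSub (globalLevels S) V), (∀ s ∈ V, cycloChar p s = 1) →
    H3Vanishes (restrictLevels (globalLevels S) V hV)
      (Representation.trivial (ZMod p) ↥V (ZMod p))

variable {p S}

/-- level `H³(G_S, A) = 0` for every finite smooth `𝔽_p[G_S]`-module. -/
theorem h3Vanishes_global (hpS : pPrime p ∈ S) (h : GlobalH3Base p S) {A : Type*}
    [AddCommGroup A] [Module (ZMod p) A] [Finite A] (ρ : Representation (ZMod p) GQ A)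
    (hsm : IsSmoothRep (globalLevels S) ρ) : H3Vanishes (globalLevels S) ρ := by
  obtain ⟨U0, hU0, hχ⟩ := Fermat.Agent.S55.LocDual26.Mu.exists_globalLevel_cycloChar p S hpS
  have hker : IsOpenSub (globalLevels S) (cycloChar p).ker :=
    ⟨U0, hU0, fun s hs => MonoidHom.mem_ker.2 (hχ s hs)⟩
  refine h3Vanishes_of_trivial_cofinal p {V | ∀ s ∈ V, cycloChar p s = 1} ?_ ?_ ρ hsm
  · intro V hV
    refine ⟨V ⊓ (cycloChar p).ker, ?_, inf_le_left, hV.inf hker, not_dvd_relIndex_ker p _ V⟩
    intro s hs
    exact MonoidHom.mem_ker.1 hs.2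
  · intro V hVmem hV
    exact h V hV hVmem

/-- **(P1) in level form.** -/
theorem globalRightExactL_of_base (hpS : pPrime p ∈ S) (h : GlobalH3Base p S) :
    Plug.GlobalRightExactL p S := by
  intro M N _ _ hM _ g hg
  have hMs : (globalLevels S).IsSmooth M := by
    obtain ⟨U, hU, hU1⟩ := hM
    exact fun m => ⟨U, hU, fun s hs => by rw [hU1 s hs]; rfl⟩
  haveI : Finite M := Module.finite_of_finite (ZMod p)
  exact H2map_surjective_of_h3Vanishes (globalLevels S) g.hom.toLinearMap
    (LevelStr.isEquivariant_hom g) hg hMs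
    (h3Vanishes_global hpS h _ (kerRep_isSmoothRep _ _ hMs))

/-- **(P1) LITERALLY**: `Contract34.GlobalRightExact p S` from `GlobalH3Base p S`. -/
theorem globalRightExact_of_base (hpS : pPrime p ∈ S) (h : GlobalH3Base p S) :
    Contract34.GlobalRightExact p S :=
  (Plug.globalRightExact_iff p S).2 (globalRightExactL_of_base hpS h)

end Fermat.Agent.S55.CD3
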