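/-
S55 (helper3): the `cd ≤ 2` plug of the W59 wiring (`R3Wire52.CDPlug`) for `globalLevels S`
from the single arithmetic input `CD3.GlobalH3Base p S`.
-/
import Fermat.Agent.S55.CD3.P1
import Fermat.Agent.S55.R3Wire52

set_option autoImplicit false

open Fermat.Agent.S55.Profin15
open ExtCitation

namespace Fermat.Agent.S55.CD3

/-- `R3Wire52.CDPlug (ZMod p) (globalLevels S)` from `GlobalH3Base p S`. -/
theorem cdPlug_of_base {p : ℕ} [Fact p.Prime] {S : Finset Nat.Primes} (hpS : pPrime p ∈ S)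
    (h : GlobalH3Base p S) : R3Wire52.CDPlug (ZMod p) (globalLevels S) :=
  fun _ _ _ _ ρ hsm => h3Vanishes_global hpS h ρ hsm

end Fermat.Agent.S55.CD3
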