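/-
S55 (helper3): transport of `CD3.H3Vanishes` (level `H³ = 0`)
* along an equivariant additive isomorphism of the coefficients (the scalar ring is irrelevant),
* along a change of level structure with the same topology (`KummerBr95.LevelEquiv`),
* along a group isomorphism (`LevelStr.comap`).
-/
import Fermat.Agent.S55.CD3.Cochain
import Fermat.Agent.S55.KummerBr95.LevelEquiv

set_option autoImplicit false

universe u v

open Fermat.Agent.S55.Profin15

namespace Fermat.Agent.S55.CD3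

variable {G : Type u} [Group G]

section Coeff

variable {k k' : Type*} [CommRing k] [CommRing k'] {A A' : Type*} [AddCommGroup A] [Module k A]
  [AddCommGroup A'] [Module k' A']

/-- `d23` commutes with an equivariant additive map (any scalar rings). -/
lemma d23_comp_addHom (ρ : Representation k G A) (ρ' : Representation k' G A') (e : A →+ A')
    (he : ∀ g a, e (ρ g a) = ρ' g (e a)) (b : G × G → A) :
    d23 ρ' (e ∘ b) = e ∘ d23 ρ b := by
  funext ⟨g, h, j⟩
  simp only [d23_apply, Function.comp_apply, map_sub, map_add, he]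

/-- `d34` commutes with an equivariant additive map (any scalar rings). -/
lemma d34_comp_addHom (ρ : Representation k G A) (ρ' : Representation k' G A') (e : A →+ A')
    (he : ∀ g a, e (ρ g a) = ρ' g (e a)) (f : G × G × G → A) :
    d34 ρ' (e ∘ f) = e ∘ d34 ρ f := by
  funext ⟨g, h, i, j⟩
  simp only [d34_apply, Function.comp_apply, map_sub, map_add, he]

/-- **transport along an equivariant additive isomorphism of the coefficients**; the scalar rings
may differ (e.g. `ℤ` and `ZMod p`). -/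
theorem H3Vanishes.of_addEquiv {𝒰 : LevelStr G} (ρ : Representation k G A)
    (ρ' : Representation k' G A') (e : A ≃+ A') (he : ∀ g a, e (ρ g a) = ρ' g (e a))
    (h : H3Vanishes 𝒰 ρ) : H3Vanishes 𝒰 ρ' := by
  intro f hf hf0
  have he' : ∀ g a, e.symm (ρ' g a) = ρ g (e.symm a) := by
    intro g a
    apply e.injective
    rw [he, e.apply_symm_apply, e.apply_symm_apply]
  have h0 : d34 ρ (e.symm ∘ f) = 0 := by
    have := d34_comp_addHom ρ' ρ e.symm.toAddMonoidHom he' f
    rw [show (⇑e.symm.toAddMonoidHom ∘ f) = (⇑e.symm ∘ f) from rfl] at this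
    rw [this, hf0]
    funext x
    simp
  obtain ⟨b, hb, hbf⟩ := h (e.symm ∘ f) (isConst₃_comp hf _) h0
  refine ⟨e ∘ b, hb.comp _, ?_⟩
  have := d23_comp_addHom ρ ρ' e.toAddMonoidHom he b
  rw [show (⇑e.toAddMonoidHom ∘ b) = (⇑e ∘ b) from rfl] at this
  rw [this, hbf]
  funext x
  simp

theorem h3Vanishes_addEquiv_iff {𝒰 : LevelStr G} (ρ : Representation k G A)
    (ρ' : Representation k' G A') (e : A ≃+ A') (he : ∀ g a, e (ρ g a) = ρ' g (e a)) :
    H3Vanishes 𝒰 ρ ↔ H3Vanishes 𝒰 ρ' := by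
  refine ⟨H3Vanishes.of_addEquiv ρ ρ' e he, H3Vanishes.of_addEquiv ρ' ρ e.symm fun g a => ?_⟩
  apply e.injective
  rw [he, e.apply_symm_apply, e.apply_symm_apply]

end Coeff

section Level

variable {k : Type*} [CommRing k] {A : Type v} [AddCommGroup A] [Module k A]

/-- **change of level structure (same topology)**. -/
theorem H3Vanishes.of_levelEquiv {𝒰 𝒰' : LevelStr G} (h : KummerBr95.LevelEquiv 𝒰 𝒰')
    {ρ : Representation k G A} (h3 : H3Vanishes 𝒰 ρ) : H3Vanishes 𝒰' ρ := by
  intro f hf hf0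
  obtain ⟨b, hb, hbf⟩ := h3 f ((h.isConst₃_iff f).2 hf) hf0
  exact ⟨b, (h.isConst₂_iff b).1 hb, hbf⟩

theorem h3Vanishes_levelEquiv_iff {𝒰 𝒰' : LevelStr G} (h : KummerBr95.LevelEquiv 𝒰 𝒰')
    (ρ : Representation k G A) : H3Vanishes 𝒰 ρ ↔ H3Vanishes 𝒰' ρ :=
  ⟨H3Vanishes.of_levelEquiv h, H3Vanishes.of_levelEquiv h.symm⟩

/-- smoothness only depends on the topology. -/
theorem IsSmoothRep.of_levelLE {𝒰 𝒰' : LevelStr G} (h : KummerBr95.LevelLE 𝒰 𝒰')
    {ρ : Representation k G A} (hρ : IsSmoothRep 𝒰 ρ) : IsSmoothRep 𝒰' ρ := fun a => by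
  obtain ⟨U, hU, hc⟩ := hρ a
  obtain ⟨U', hU', hle⟩ := h U hU
  exact ⟨U', hU', fun s hs => hc s (hle hs)⟩

end Level

section Group

variable {k : Type*} [CommRing k] {A : Type v} [AddCommGroup A] [Module k A]
variable {H : Type u} [Group H]

/-- **transport along a group isomorphism** `e : H ≃* G`: level `H³` of `(G, 𝒰, ρ)` vanishes iff
level `H³` of `(H, 𝒰.comap e, ρ ∘ e)` does. -/
theorem H3Vanishes.comap_mulEquiv {𝒰 : LevelStr G} (e : H ≃* G) {ρ : Representation k G A}
    (h : H3Vanishes 𝒰 ρ) : H3Vanishes (𝒰.comap e.toMonoidHom) (ρ.comp e.toMonoidHom) := by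
  intro f hf hf0
  -- push `f` to `G`
  set f' : G × G × G → A := fun x => f (e.symm x.1, e.symm x.2.1, e.symm x.2.2) with hf'
  have hf'c : 𝒰.IsConst₃ f' := by
    obtain ⟨V, ⟨U, hU, rfl⟩, hc⟩ := hf
    refine ⟨U, hU, fun g g' g'' s s' s'' hs hs' hs'' => ?_⟩
    simp only [hf', map_mul]
    refine hc _ _ _ _ _ _ ?_ ?_ ?_ <;>
    · rw [Subgroup.mem_comap]
      simpa using ‹_›
  have hf'0 : d34 ρ f' = 0 := by
    funext ⟨g, h', i, j⟩
    have := congrFun hf0 (e.symm g, e.symm h', e.symm i, e.symm j)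
    simp only [d34_apply, Pi.zero_apply, MonoidHom.comp_apply, MulEquiv.coe_toMonoidHom,
      MulEquiv.apply_symm_apply, ← map_mul] at this
    simpa [hf'] using this
  obtain ⟨b', hb'c, hb'⟩ := h f' hf'c hf'0
  refine ⟨fun x => b' (e x.1, e x.2), ?_, ?_⟩
  · obtain ⟨U, hU, hc⟩ := hb'c
    refine ⟨U.comap e.toMonoidHom, ⟨U, hU, rfl⟩, fun g g' s s' hs hs' => ?_⟩
    simp only [map_mul]
    exact hc _ _ _ _ hs hs'
  · funext ⟨g, h', j⟩
    have := congrFun hb' (e g, e h', e j)
    simp only [d23_apply, hf', MulEquiv.symm_apply_apply, ← map_mul] at this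
    simpa using this

end Group

end Fermat.Agent.S55.CD3
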