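/-
S55 (helper3): the local `cd ≤ 2` plug of the W59 wiring (`rightExactLoc` of `R3Wire52.Plugs`)
from helper71's local base case `P2Local71.LocalH3Base`.
-/
import Fermat.Agent.S55.CD3.W59
import Fermat.Agent.S55.P2Local71.Reduce

set_option autoImplicit false

open Fermat.Agent.S55.Profin15
open ExtCitation

namespace Fermat.Agent.S55.CD3

/-- `rightExactLoc` of `R3Wire52.Plugs` from the local base cases. -/
theorem rightExactLoc_of_base {p : ℕ} [Fact p.Prime] {S : Finset Nat.Primes}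
    (h : ∀ q : ↥S, P2Local71.LocalH3Base p q.1) :
    ∀ q : ↥S, Dualizing59.RightExactH2 (ZMod p) (R3Wire52.Uq S q) := by
  intro q
  obtain ⟨𝒱, hcof, hb⟩ := h q
  exact rightExactH2_of_cofinal p _ 𝒱 hcof hb

/-- the two `cd ≤ 2` inputs of `R3Wire52.plugs_of_cd` from the two arithmetic base cases. -/
theorem plugs_of_bases {p : ℕ} [Fact p.Prime] {S : Finset Nat.Primes} (hpS : pPrime p ∈ S)
    (hG : GlobalH3Base p S) (hL : ∀ q : ↥S, P2Local71.LocalH3Base p q.1)
    (hinv : ∀ hμ : R3Wire52.MuTrivialised p S, ∃ inv : R3Wire52.InvFamily p S,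
      R3Wire52.Reciprocity inv ∧ R3Wire52.GlobalBase hμ inv ∧ R3Wire52.LocalBase inv) :
    R3Wire52.Plugs p S :=
  R3Wire52.plugs_of_cd p S hpS (cdPlug_of_base hpS hG) (rightExactLoc_of_base hL) hinv

end Fermat.Agent.S55.CD3
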